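import Mathlib

/-!
# Row LT, tower T2, leaf T2.10.08.11 `OdeUniqC`: the Mathlib-only core (helper864)

OFF-MAIN.  A solution of `h'' = k² e^{2s} h` on `ℝ` which tends to `0` at `+∞` and has a zero
vanishes identically.

Proof.  `E = h h'` has `E' = h'² + q h² ≥ 0` (`q = k² e^{2s} ≥ 0`), so `E ≥ 0` after the zero `s₀`,
`h²` is non-decreasing on `[s₀, ∞)` and tends to `0`: `h = 0` on `[s₀, ∞)`.  At `s₁ = s₀ + 1`:
`h = h' = 0`; on `(-∞, s₁]`, `q ≤ C = k² e^{2 s₁}` and `F = h'² + h²` satisfies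
`F' + (C + 1) F ≥ (q + 1) (h + h')² ≥ 0`, so `e^{(C+1) s} F` is non-decreasing and `≤ 0` at `s₁`.
-/

set_option autoImplicit false

noncomputable section

namespace Fermat.Agent.LT.T2.H864

/-- The core of `OdeUniqC`. -/
theorem ode_uniq_core864 (k : ℝ) (h h' : ℝ → ℝ) (hh : ∀ s : ℝ, HasDerivAt h (h' s) s)
    (hh' : ∀ s : ℝ, HasDerivAt h' (k ^ 2 * Real.exp (2 * s) * h s) s)
    (hlim : Filter.Tendsto h Filter.atTop (nhds 0)) {s₀ : ℝ} (h0 : h s₀ = 0) :
    ∀ s : ℝ, h s = 0 := by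
  have hq : ∀ s : ℝ, 0 ≤ k ^ 2 * Real.exp (2 * s) := fun s =>
    mul_nonneg (sq_nonneg k) (Real.exp_pos _).le
  -- Step A: `E = h h'` is monotone
  have hE : ∀ s : ℝ, HasDerivAt (fun x => h x * h' x)
      (h' s * h' s + h s * (k ^ 2 * Real.exp (2 * s) * h s)) s := fun s => (hh s).mul (hh' s)
  have hEmono : Monotone fun x => h x * h' x := by
    refine monotone_of_deriv_nonneg (fun s => (hE s).differentiableAt) (fun s => ?_)
    rw [(hE s).deriv]
    have := hq s
    nlinarith [sq_nonneg (h' s), sq_nonneg (h s), mul_nonneg this (sq_nonneg (h s))]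
  -- Step B: `h = 0` on `[s₀, ∞)`
  have hP : ∀ s : ℝ, HasDerivAt (fun x => h x ^ 2) (2 * (h s * h' s)) s := by
    intro s
    have h1 : HasDerivAt (fun x => h x * h x) (h' s * h s + h s * h' s) s := (hh s).mul (hh s)
    have e1 : (fun x => h x ^ 2) = fun x => h x * h x := by
      funext x
      ring
    rw [e1]
    exact h1.congr_deriv (by ring)
  have hPmono : MonotoneOn (fun x => h x ^ 2) (Set.Ici s₀) := by
    refine monotoneOn_of_deriv_nonneg (convex_Ici s₀)
      (fun s _ => (hP s).continuousAt.continuousWithinAt)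
      (fun s _ => (hP s).differentiableAt.differentiableWithinAt) (fun s hs => ?_)
    rw [interior_Ici] at hs
    rw [(hP s).deriv]
    have h1 : h s₀ * h' s₀ ≤ h s * h' s := hEmono (le_of_lt hs)
    rw [h0, zero_mul] at h1
    linarith
  have hright : ∀ s : ℝ, s₀ ≤ s → h s = 0 := by
    intro s hs
    have hlim2 : Filter.Tendsto (fun x => h x ^ 2) Filter.atTop (nhds 0) := by
      have := hlim.pow 2
      simpa using this
    have hle : h s ^ 2 ≤ 0 := by
      refine ge_of_tendsto hlim2 ?_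
      filter_upwards [Filter.eventually_ge_atTop s] with t ht
      exact hPmono (Set.mem_Ici.2 hs) (Set.mem_Ici.2 (hs.trans ht)) ht
    have : h s ^ 2 = 0 := le_antisymm hle (sq_nonneg _)
    exact pow_eq_zero_iff (two_ne_zero) |>.1 this
  -- Step C: `h = h' = 0` at `s₁ = s₀ + 1`
  set s₁ : ℝ := s₀ + 1 with hs₁
  have hs₁0 : h s₁ = 0 := hright s₁ (by rw [hs₁]; linarith)
  have hs₁' : h' s₁ = 0 := by
    have hev : h =ᶠ[nhds s₁] fun _ => (0 : ℝ) := by
      have hmem : Set.Ioi s₀ ∈ nhds s₁ := Ioi_mem_nhds (by rw [hs₁]; linarith)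
      filter_upwards [hmem] with t ht
      exact hright t (le_of_lt ht)
    have hd : HasDerivAt h 0 s₁ := (hasDerivAt_const s₁ (0 : ℝ)).congr_of_eventuallyEq hev
    exact (hh s₁).unique hd
  -- Step D: `h = 0` on `(-∞, s₁]`
  set C : ℝ := k ^ 2 * Real.exp (2 * s₁) with hC
  have hF : ∀ s : ℝ, HasDerivAt (fun x => h' x ^ 2 + h x ^ 2)
      (2 * (h' s * (k ^ 2 * Real.exp (2 * s) * h s)) + 2 * (h s * h' s)) s := by
    intro s
    have h1 : HasDerivAt (fun x => h' x * h' x)
        (k ^ 2 * Real.exp (2 * s) * h s * h' s + h' s * (k ^ 2 * Real.exp (2 * s) * h s)) s :=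
      (hh' s).mul (hh' s)
    have h2 : HasDerivAt (fun x => h x * h x) (h' s * h s + h s * h' s) s := (hh s).mul (hh s)
    have h3 := h1.add h2
    have e1 : (fun x => h' x ^ 2 + h x ^ 2) = fun x => h' x * h' x + h x * h x := by
      funext x
      ring
    rw [e1]
    exact h3.congr_deriv (by ring)
  have hexp : ∀ s : ℝ, HasDerivAt (fun x => Real.exp ((C + 1) * x))
      (Real.exp ((C + 1) * s) * (C + 1)) s := by
    intro s
    have h1 : HasDerivAt (fun x : ℝ => (C + 1) * x) (C + 1) s := by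
      simpa using (hasDerivAt_id s).const_mul (C + 1)
    exact h1.exp
  have hG : ∀ s : ℝ, HasDerivAt (fun x => Real.exp ((C + 1) * x) * (h' x ^ 2 + h x ^ 2))
      (Real.exp ((C + 1) * s) * (C + 1) * (h' s ^ 2 + h s ^ 2) +
        Real.exp ((C + 1) * s) *
          (2 * (h' s * (k ^ 2 * Real.exp (2 * s) * h s)) + 2 * (h s * h' s))) s :=
    fun s => (hexp s).mul (hF s)
  have hGmono : MonotoneOn (fun x => Real.exp ((C + 1) * x) * (h' x ^ 2 + h x ^ 2))
      (Set.Iic s₁) := by
    refine monotoneOn_of_deriv_nonneg (convex_Iic s₁)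
      (fun s _ => (hG s).continuousAt.continuousWithinAt)
      (fun s _ => (hG s).differentiableAt.differentiableWithinAt) (fun s hs => ?_)
    rw [interior_Iic] at hs
    rw [(hG s).deriv]
    have hqs : k ^ 2 * Real.exp (2 * s) ≤ C := by
      rw [hC]
      refine mul_le_mul_of_nonneg_left ?_ (sq_nonneg k)
      exact Real.exp_le_exp.2 (by have := Set.mem_Iio.1 hs; linarith)
    have hq0 := hq s
    have hpos : 0 < Real.exp ((C + 1) * s) := Real.exp_pos _
    have key : 0 ≤ (C + 1) * (h' s ^ 2 + h s ^ 2) +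
        (2 * (h' s * (k ^ 2 * Real.exp (2 * s) * h s)) + 2 * (h s * h' s)) := by
      set q := k ^ 2 * Real.exp (2 * s) with hqdef
      have e : (C + 1) * (h' s ^ 2 + h s ^ 2) + (2 * (h' s * (q * h s)) + 2 * (h s * h' s))
          = (C - q) * (h' s ^ 2 + h s ^ 2) + (q + 1) * (h s + h' s) ^ 2 := by ring
      rw [e]
      have t1 : 0 ≤ (C - q) * (h' s ^ 2 + h s ^ 2) :=
        mul_nonneg (by linarith) (by positivity)
      have t2 : 0 ≤ (q + 1) * (h s + h' s) ^ 2 := mul_nonneg (by linarith) (sq_nonneg _)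
      linarith
    have e2 : Real.exp ((C + 1) * s) * (C + 1) * (h' s ^ 2 + h s ^ 2) +
        Real.exp ((C + 1) * s) *
          (2 * (h' s * (k ^ 2 * Real.exp (2 * s) * h s)) + 2 * (h s * h' s)) =
        Real.exp ((C + 1) * s) * ((C + 1) * (h' s ^ 2 + h s ^ 2) +
          (2 * (h' s * (k ^ 2 * Real.exp (2 * s) * h s)) + 2 * (h s * h' s))) := by ring
    rw [e2]
    exact mul_nonneg hpos.le key
  intro s
  rcases le_total s s₁ with hs | hs
  · have h1 := hGmono (Set.mem_Iic.2 hs) (Set.mem_Iic.2 le_rfl) hs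
    simp only [hs₁0, hs₁'] at h1
    have hpos : 0 < Real.exp ((C + 1) * s) := Real.exp_pos _
    have h2 : Real.exp ((C + 1) * s) * (h' s ^ 2 + h s ^ 2) ≤ 0 := by
      simpa using h1
    have h3 : h' s ^ 2 + h s ^ 2 ≤ 0 := by
      by_contra hcon
      have hcon' : 0 < h' s ^ 2 + h s ^ 2 := lt_of_not_ge hcon
      have := mul_pos hpos hcon'
      linarith
    have h4 : h s ^ 2 ≤ 0 := by nlinarith [sq_nonneg (h' s)]
    have : h s ^ 2 = 0 := le_antisymm h4 (sq_nonneg _)
    exact pow_eq_zero_iff (two_ne_zero) |>.1 this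
  · exact hright s (by rw [hs₁] at hs; linarith)

end Fermat.Agent.LT.T2.H864

end
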