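import Fermat.Agent.LT.T2.H973.ArchSpec
import Fermat.Agent.LT.T2.H864.OdeCore

/-!
# Row LT, tower T2, leaf T2.10.08.11 `OdeUniqC` (registry 1209): PROVED (helper864)

OFF-MAIN.  `odeUniqC864 : Fermat.Agent.LT.T2.H973.OdeUniqC`, VERBATIM against
`LT/T2/H973/ArchSpec.lean` (helper973, sha256 6e234a4a0ea7, byte-identical copy).
The proof is `ode_uniq_core864` (`OdeCore.lean`, Mathlib only).
-/

set_option autoImplicit false

namespace Fermat.Agent.LT.T2.H864

/-- **L5 = `H973.OdeUniqC`.** -/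
theorem odeUniqC864 : Fermat.Agent.LT.T2.H973.OdeUniqC := by
  intro k h hdec hzero
  obtain ⟨⟨h', hh, hh'⟩, hlim⟩ := hdec
  obtain ⟨s₀, h0⟩ := hzero
  exact ode_uniq_core864 k h h' hh hh' hlim h0

end Fermat.Agent.LT.T2.H864
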